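import Fermat.Agent.S14.Basic.Ord

set_option autoImplicit false
set_option linter.unusedSectionVars false
set_option linter.unusedVariables false

namespace Fermat.Agent.S14

open IsDedekindDomain NumberField

variable {F : Type*} [Field F] [NumberField F] {p : ℕ}

/-! ## `LocPow` -/

lemma exp_neg_natCast_le_one (n : ℕ) : WithZero.exp (-(n : ℤ)) ≤ (1 : WithZero (Multiplicative ℤ)) := by
  rw [← WithZero.exp_zero, WithZero.exp_le_exp]; omega

lemma exp_neg_natCast_lt_one {n : ℕ} (hn : 1 ≤ n) :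
    WithZero.exp (-(n : ℤ)) < (1 : WithZero (Multiplicative ℤ)) := by
  rw [← WithZero.exp_zero, WithZero.exp_lt_exp]; omega

lemma LocPow.ne_zero {v : Pl F} {n : ℕ} {x : F} (hn : 1 ≤ n) (h : LocPow p v n x) : x ≠ 0 := by
  rintro rfl
  obtain ⟨c, -, hc⟩ := h
  have h1 : v.valuation F ((0 : F) / c ^ p - 1) = 1 := by simp
  rw [h1] at hc
  exact absurd hc (not_le.mpr (exp_neg_natCast_lt_one hn))

lemma LocPow.mono {v : Pl F} {n n' : ℕ} {x : F} (hn : n' ≤ n) (h : LocPow p v n x) :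
    LocPow p v n' x := by
  obtain ⟨c, hc0, hc⟩ := h
  refine ⟨c, hc0, hc.trans ?_⟩
  rw [WithZero.exp_le_exp]; omega

lemma locPow_ppow (v : Pl F) (n : ℕ) {c : F} (hc : c ≠ 0) : LocPow p v n (c ^ p) := by
  refine ⟨c, hc, ?_⟩
  rw [div_self (pow_ne_zero p hc)]
  simp

lemma locPow_one (v : Pl F) (n : ℕ) : LocPow p v n (1 : F) := by
  simpa using locPow_ppow (p := p) v n (one_ne_zero (α := F))

/-- auxiliary: `(1 + a) (1 + b) - 1` is small if `a`, `b` are. -/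
lemma valuation_mul_sub_one_le (v : Pl F) {n : ℕ} {s t : F}
    (hs : v.valuation F (s - 1) ≤ WithZero.exp (-(n : ℤ)))
    (ht : v.valuation F (t - 1) ≤ WithZero.exp (-(n : ℤ))) :
    v.valuation F (s * t - 1) ≤ WithZero.exp (-(n : ℤ)) := by
  have h1 : s * t - 1 = (s - 1) * (t - 1) + ((s - 1) + (t - 1)) := by ring
  rw [h1]
  refine (Valuation.map_add _ _ _).trans (max_le ?_ ((Valuation.map_add _ _ _).trans (max_le hs ht)))
  rw [map_mul]
  calc v.valuation F (s - 1) * v.valuation F (t - 1)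
      ≤ WithZero.exp (-(n : ℤ)) * 1 :=
        mul_le_mul' hs (ht.trans (exp_neg_natCast_le_one n))
    _ = WithZero.exp (-(n : ℤ)) := mul_one _

lemma LocPow.mul {v : Pl F} {n : ℕ} {x y : F} (hx : LocPow p v n x) (hy : LocPow p v n y) :
    LocPow p v n (x * y) := by
  obtain ⟨c, hc0, hc⟩ := hx
  obtain ⟨d, hd0, hd⟩ := hy
  refine ⟨c * d, mul_ne_zero hc0 hd0, ?_⟩
  have h1 : x * y / (c * d) ^ p = (x / c ^ p) * (y / d ^ p) := by
    rw [mul_pow]; field_simp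
  rw [h1]
  exact valuation_mul_sub_one_le v hc hd

lemma valuation_inv_sub_one_le (v : Pl F) {n : ℕ} (hn : 1 ≤ n) {s : F}
    (hs : v.valuation F (s - 1) ≤ WithZero.exp (-(n : ℤ))) :
    v.valuation F (s⁻¹ - 1) ≤ WithZero.exp (-(n : ℤ)) := by
  have hlt : v.valuation F (s - 1) < 1 := hs.trans_lt (exp_neg_natCast_lt_one hn)
  have h1 : v.valuation F s = 1 := by
    have := Valuation.map_add_eq_of_lt_left (v.valuation F) (x := 1) (y := s - 1)
      (by simpa using hlt)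
    simpa using this
  have hs0 : s ≠ 0 := by
    rintro rfl
    simp at h1
  have h2 : s⁻¹ - 1 = - (s - 1) * s⁻¹ := by field_simp; ring
  rw [h2, map_mul, map_inv₀, h1, Valuation.map_neg]
  simpa using hs

lemma LocPow.inv {v : Pl F} {n : ℕ} {x : F} (hn : 1 ≤ n) (hx : LocPow p v n x) :
    LocPow p v n x⁻¹ := by
  obtain ⟨c, hc0, hc⟩ := hx
  refine ⟨c⁻¹, inv_ne_zero hc0, ?_⟩
  have h1 : x⁻¹ / c⁻¹ ^ p = (x / c ^ p)⁻¹ := by
    rw [inv_pow, inv_div, div_inv_eq_mul, div_eq_mul_inv, mul_comm]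
  rw [h1]
  exact valuation_inv_sub_one_le v hn hc

lemma LocPow.div {v : Pl F} {n : ℕ} {x y : F} (hn : 1 ≤ n) (hx : LocPow p v n x)
    (hy : LocPow p v n y) : LocPow p v n (x / y) := by
  rw [div_eq_mul_inv]
  exact hx.mul (hy.inv hn)

lemma LocPow.pow {v : Pl F} {n : ℕ} {x : F} (hx : LocPow p v n x) (k : ℕ) :
    LocPow p v n (x ^ k) := by
  induction k with
  | zero => simpa using locPow_one v n
  | succ k ih => rw [pow_succ]; exact ih.mul hx

lemma LocPow.zpow {v : Pl F} {n : ℕ} {x : F} (hn : 1 ≤ n) (hx : LocPow p v n x) (k : ℤ) :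
    LocPow p v n (x ^ k) := by
  cases k with
  | ofNat k => simpa using hx.pow k
  | negSucc k =>
    rw [zpow_negSucc]
    exact (hx.pow (k + 1)).inv hn

lemma LocPow.dvd_ord {v : Pl F} {n : ℕ} {x : F} (hn : 1 ≤ n) (h : LocPow p v n x) :
    (p : ℤ) ∣ ord v x := by
  have hx0 := h.ne_zero hn
  obtain ⟨c, hc0, hc⟩ := h
  have h1 : ord v (x / c ^ p) = 0 :=
    ord_eq_zero_of_valuation_sub_one_lt v (hc.trans_lt (exp_neg_natCast_lt_one hn))
  have h2 : x = (x / c ^ p) * c ^ p := by field_simp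
  rw [h2, ord_mul v (div_ne_zero hx0 (pow_ne_zero p hc0)) (pow_ne_zero p hc0), h1, ord_pow]
  simp

lemma locPow_of_isPPow (v : Pl F) (n : ℕ) {x : F} (hx0 : x ≠ 0) (hx : IsPPow p x) :
    LocPow p v n x := by
  obtain ⟨c, rfl⟩ := hx
  by_cases hc : c = 0
  · subst hc
    by_cases hp : p = 0
    · subst hp
      simpa using locPow_one (p := 0) v n
    · simp [hp] at hx0
  · exact locPow_ppow v n hc

/-- `LocPow` only depends on the class modulo `1 + v ^ n`. -/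
lemma LocPow.of_close {v : Pl F} {n : ℕ} {x y : F} (hx0 : x ≠ 0) (hx : LocPow p v n x)
    (h : v.valuation F (y / x - 1) ≤ WithZero.exp (-(n : ℤ))) : LocPow p v n y := by
  obtain ⟨c, hc0, hc⟩ := hx
  refine ⟨c, hc0, ?_⟩
  have h1 : y / c ^ p = (y / x) * (x / c ^ p) := by field_simp
  rw [h1]
  exact valuation_mul_sub_one_le v h hc

/-! ## `IsPPow` -/

lemma IsPPow.mul {x y : F} (hx : IsPPow p x) (hy : IsPPow p y) : IsPPow p (x * y) := by
  obtain ⟨c, rfl⟩ := hx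
  obtain ⟨d, rfl⟩ := hy
  exact ⟨c * d, mul_pow c d p⟩

lemma IsPPow.inv {x : F} (hx : IsPPow p x) : IsPPow p x⁻¹ := by
  obtain ⟨c, rfl⟩ := hx
  exact ⟨c⁻¹, inv_pow c p⟩

lemma IsPPow.div {x y : F} (hx : IsPPow p x) (hy : IsPPow p y) : IsPPow p (x / y) := by
  rw [div_eq_mul_inv]; exact hx.mul hy.inv

lemma IsPPow.pow {x : F} (hx : IsPPow p x) (k : ℕ) : IsPPow p (x ^ k) := by
  obtain ⟨c, rfl⟩ := hx
  exact ⟨c ^ k, by rw [← pow_mul, ← pow_mul, mul_comm]⟩

lemma IsPPow.zpow {x : F} (hx : IsPPow p x) (k : ℤ) : IsPPow p (x ^ k) := by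
  cases k with
  | ofNat k => simpa using hx.pow k
  | negSucc k =>
    rw [zpow_negSucc]
    exact (hx.pow (k + 1)).inv

lemma isPPow_zpow_of_dvd (x : F) {k : ℤ} (hk : (p : ℤ) ∣ k) : IsPPow p (x ^ k) := by
  obtain ⟨j, rfl⟩ := hk
  refine ⟨x ^ j, ?_⟩
  rw [← zpow_natCast, ← zpow_mul, mul_comm]

lemma isPPow_pow_self (c : F) : IsPPow p (c ^ p) := ⟨c, rfl⟩

end Fermat.Agent.S14
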