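import Fermat.Agent.S14.Basic.Ord

set_option autoImplicit false
set_option linter.unusedSectionVars false
set_option linter.unusedVariables false

namespace Fermat.Agent.S14

open IsDedekindDomain NumberField

variable {F : Type*} [Field F] [NumberField F] {p : ℕ}

/-! ## `pair` -/

lemma finite_support_pair_term (m : Pl F → ZMod p) (x : F) :
    (Function.support fun v : Pl F => ((ord v x : ℤ) : ZMod p) * m v).Finite := by
  by_cases hx : x = 0
  · subst hx
    simp [ord_zero]
  · refine (finite_support_ord hx).subset ?_
    intro v hv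
    simp only [Function.mem_support] at hv ⊢
    intro h
    apply hv
    simp [h]

lemma pair_eq_sum (m : Pl F → ZMod p) (x : F) (s : Finset (Pl F))
    (hs : ∀ v, v ∉ s → ord v x = 0 ∨ m v = 0) :
    pair m x = ∑ v ∈ s, ((ord v x : ℤ) : ZMod p) * m v := by
  apply finsum_eq_sum_of_support_subset
  intro v hv
  by_contra hvs
  simp only [Function.mem_support] at hv
  apply hv
  rcases hs v hvs with h | h <;> simp [h]

lemma pair_one (m : Pl F → ZMod p) : pair m (1 : F) = 0 := by
  simp [pair, ord_one]

lemma pair_zero_right (m : Pl F → ZMod p) : pair m (0 : F) = 0 := by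
  simp [pair, ord_zero]

lemma pair_mul (m : Pl F → ZMod p) {x y : F} (hx : x ≠ 0) (hy : y ≠ 0) :
    pair m (x * y) = pair m x + pair m y := by
  unfold pair
  rw [← finsum_add_distrib (finite_support_pair_term m x) (finite_support_pair_term m y)]
  apply finsum_congr
  intro v
  rw [ord_mul v hx hy]
  push_cast
  ring

lemma pair_inv (m : Pl F → ZMod p) (x : F) : pair m x⁻¹ = - pair m x := by
  unfold pair
  rw [← finsum_neg_distrib]
  apply finsum_congr
  intro v
  rw [ord_inv]
  push_cast
  ring

lemma pair_div (m : Pl F → ZMod p) {x y : F} (hx : x ≠ 0) (hy : y ≠ 0) :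
    pair m (x / y) = pair m x - pair m y := by
  rw [div_eq_mul_inv, pair_mul m hx (inv_ne_zero hy), pair_inv]; ring

lemma pair_zpow (m : Pl F → ZMod p) (x : F) (n : ℤ) : pair m (x ^ n) = n * pair m x := by
  unfold pair
  rw [mul_finsum' _ _ (finite_support_pair_term m x)]
  apply finsum_congr
  intro v
  rw [ord_zpow]
  push_cast
  ring

lemma pair_pow (m : Pl F → ZMod p) (x : F) (n : ℕ) : pair m (x ^ n) = n * pair m x := by
  have := pair_zpow m x (n : ℤ)
  simpa using this

lemma pair_ppow (m : Pl F → ZMod p) (c : F) : pair m (c ^ p) = 0 := by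
  rw [pair_pow]; simp

lemma pair_of_isPPow (m : Pl F → ZMod p) {x : F} (hx : IsPPow p x) : pair m x = 0 := by
  obtain ⟨c, rfl⟩ := hx
  exact pair_ppow m c

lemma pair_add_left (m m' : Pl F → ZMod p) {x : F} (hx : x ≠ 0) :
    pair (m + m') x = pair m x + pair m' x := by
  unfold pair
  rw [← finsum_add_distrib (finite_support_pair_term m x) (finite_support_pair_term m' x)]
  apply finsum_congr
  intro v
  simp only [Pi.add_apply]
  ring

lemma pair_smul_left (a : ZMod p) (m : Pl F → ZMod p) (x : F) :
    pair (a • m) x = a * pair m x := by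
  unfold pair
  rw [mul_finsum' _ _ (finite_support_pair_term m x)]
  apply finsum_congr
  intro v
  simp only [Pi.smul_apply, smul_eq_mul]
  ring

lemma pair_zero_left (x : F) : pair (0 : Pl F → ZMod p) x = 0 := by
  simp [pair]

end Fermat.Agent.S14
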