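import Fermat.Agent.S14.Basic.Pair
import Fermat.Agent.S14.Basic.LocPow

set_option autoImplicit false
set_option linter.unusedSectionVars false
set_option linter.unusedVariables false

namespace Fermat.Agent.S14

open IsDedekindDomain NumberField

variable {F : Type*} [Field F] [NumberField F] {p : ℕ}

/-! ## `sigmaPl` -/

lemma sigmaPl_asIdeal (σ : F ≃ₐ[ℚ] F) (v : Pl F) :
    (sigmaPl σ v).asIdeal = v.asIdeal.map (RingOfIntegers.mapRingEquiv (σ : F ≃+* F)) := by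
  rw [← Ideal.comap_symm]
  rfl

lemma mem_sigmaPl_iff (σ : F ≃ₐ[ℚ] F) (v : Pl F) (a : 𝓞 F) :
    RingOfIntegers.mapRingEquiv (σ : F ≃+* F) a ∈ (sigmaPl σ v).asIdeal ↔ a ∈ v.asIdeal := by
  change (RingOfIntegers.mapRingEquiv (σ : F ≃+* F)).symm
    (RingOfIntegers.mapRingEquiv (σ : F ≃+* F) a) ∈ v.asIdeal ↔ _
  simp

lemma mem_sigmaPl_pow_iff (σ : F ≃ₐ[ℚ] F) (v : Pl F) (a : 𝓞 F) (n : ℕ) :
    RingOfIntegers.mapRingEquiv (σ : F ≃+* F) a ∈ (sigmaPl σ v).asIdeal ^ n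
      ↔ a ∈ v.asIdeal ^ n := by
  rw [sigmaPl_asIdeal, ← Ideal.map_pow, Ideal.mem_map_of_equiv]
  constructor
  · rintro ⟨x, hx, hxa⟩
    rwa [← (RingOfIntegers.mapRingEquiv (σ : F ≃+* F)).injective hxa]
  · intro h
    exact ⟨a, h, rfl⟩

lemma ord_sigmaPl_integer (σ : F ≃ₐ[ℚ] F) (v : Pl F) {a : 𝓞 F} (ha : a ≠ 0) :
    ord (sigmaPl σ v) (σ (a : F)) = ord v (a : F) := by
  set e := RingOfIntegers.mapRingEquiv (σ : F ≃+* F) with he
  have hea : e a ≠ 0 := by simpa using ha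
  have h1 : σ (a : F) = ((e a : 𝓞 F) : F) := rfl
  rw [h1]
  have key : ∀ n : ℕ, (n : ℤ) ≤ ord (sigmaPl σ v) ((e a : 𝓞 F) : F) ↔ (n : ℤ) ≤ ord v (a : F) := by
    intro n
    rw [le_ord_iff_mem_pow _ hea, le_ord_iff_mem_pow _ ha, he, mem_sigmaPl_pow_iff]
  have h2 := ord_nonneg_of_integer (sigmaPl σ v) (e a)
  have h3 := ord_nonneg_of_integer v a
  obtain ⟨m, hm⟩ := Int.eq_ofNat_of_zero_le h2
  obtain ⟨k, hk⟩ := Int.eq_ofNat_of_zero_le h3
  have h4 := (key m).mp (by rw [hm])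
  have h5 := (key k).mpr (by rw [hk])
  omega

lemma ord_sigmaPl (σ : F ≃ₐ[ℚ] F) (v : Pl F) (x : F) : ord (sigmaPl σ v) (σ x) = ord v x := by
  by_cases hx : x = 0
  · subst hx; simp [ord_zero]
  obtain ⟨n, d, hd, rfl⟩ := IsFractionRing.div_surjective (A := 𝓞 F) x
  have hd0 : d ≠ 0 := nonZeroDivisors.ne_zero hd
  have hd0' : algebraMap (𝓞 F) F d ≠ 0 := by simpa using hd0
  have hn0' : algebraMap (𝓞 F) F n ≠ 0 := by
    intro h; apply hx; rw [h]; simp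
  have hn0 : n ≠ 0 := by
    rintro rfl; apply hn0'; simp
  rw [map_div₀, ord_div _ (by simpa using hn0') (by simpa using hd0'), ord_div _ hn0' hd0']
  have h1 := ord_sigmaPl_integer σ v hn0
  have h2 := ord_sigmaPl_integer σ v hd0
  rw [show algebraMap (𝓞 F) F n = (n : F) from rfl, show algebraMap (𝓞 F) F d = (d : F) from rfl,
    h1, h2]

lemma valuation_sigmaPl (σ : F ≃ₐ[ℚ] F) (v : Pl F) (x : F) :
    (sigmaPl σ v).valuation F (σ x) = v.valuation F x := by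
  by_cases hx : x = 0
  · subst hx; simp
  rw [valuation_eq_exp_neg_ord _ (by simpa using hx), valuation_eq_exp_neg_ord _ hx, ord_sigmaPl]

lemma locPow_sigmaPl (σ : F ≃ₐ[ℚ] F) (v : Pl F) (n : ℕ) (x : F) :
    LocPow p (sigmaPl σ v) n (σ x) ↔ LocPow p v n x := by
  constructor
  · rintro ⟨c, hc0, hc⟩
    refine ⟨σ.symm c, by simpa using hc0, ?_⟩
    rw [← valuation_sigmaPl σ v]
    simpa using hc
  · rintro ⟨c, hc0, hc⟩
    refine ⟨σ c, by simpa using hc0, ?_⟩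
    rw [← valuation_sigmaPl σ v] at hc
    simpa using hc

lemma above_sigmaPl (σ : F ≃ₐ[ℚ] F) (q : ℕ) (v : Pl F) : Above q (sigmaPl σ v) ↔ Above q v := by
  unfold Above
  rw [← mem_sigmaPl_iff σ v (q : 𝓞 F)]
  simp

lemma absNorm_sigmaPl (σ : F ≃ₐ[ℚ] F) (v : Pl F) :
    Ideal.absNorm (sigmaPl σ v).asIdeal = Ideal.absNorm v.asIdeal := by
  rw [Ideal.absNorm_apply, Ideal.absNorm_apply, Submodule.cardQuot_apply, Submodule.cardQuot_apply]
  exact (Nat.card_congr (Ideal.quotientEquiv v.asIdeal (sigmaPl σ v).asIdeal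
    (RingOfIntegers.mapRingEquiv (σ : F ≃+* F)) (sigmaPl_asIdeal σ v)).toEquiv).symm

lemma sigmaPl_one (v : Pl F) : sigmaPl (1 : F ≃ₐ[ℚ] F) v = v := by
  ext a
  have := mem_sigmaPl_iff (1 : F ≃ₐ[ℚ] F) v a
  rw [← this]
  have h : RingOfIntegers.mapRingEquiv (((1 : F ≃ₐ[ℚ] F)) : F ≃+* F) a = a := by
    apply RingOfIntegers.ext; rfl
  rw [h]

lemma sigmaPl_mul (σ τ : F ≃ₐ[ℚ] F) (v : Pl F) :
    sigmaPl (σ * τ) v = sigmaPl σ (sigmaPl τ v) := by
  ext a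
  obtain ⟨b, rfl⟩ := (RingOfIntegers.mapRingEquiv ((σ * τ : F ≃ₐ[ℚ] F) : F ≃+* F)).surjective a
  rw [mem_sigmaPl_iff]
  have h : RingOfIntegers.mapRingEquiv ((σ * τ : F ≃ₐ[ℚ] F) : F ≃+* F) b
      = RingOfIntegers.mapRingEquiv (σ : F ≃+* F) (RingOfIntegers.mapRingEquiv (τ : F ≃+* F) b) := by
    apply RingOfIntegers.ext; rfl
  rw [h, mem_sigmaPl_iff, mem_sigmaPl_iff]

lemma pair_sigma (m : Pl F → ZMod p) (σ : F ≃ₐ[ℚ] F) (x : F) :
    pair m (σ x) = pair (fun v => m (sigmaPl σ v)) x := by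
  unfold pair
  rw [← finsum_comp_equiv (sigmaPl σ)]
  apply finsum_congr
  intro v
  rw [ord_sigmaPl]

lemma isPPow_sigma (σ : F ≃ₐ[ℚ] F) (x : F) : IsPPow p (σ x) ↔ IsPPow p x := by
  constructor
  · rintro ⟨c, hc⟩
    refine ⟨σ.symm c, ?_⟩
    rw [← map_pow, hc]; simp
  · rintro ⟨c, rfl⟩
    exact ⟨σ c, by simp⟩

lemma above_iff_liesOver {q : ℕ} (hq : q.Prime) (v : Pl F) :
    Above q v ↔ v.asIdeal.LiesOver (Ideal.span {(q : ℤ)}) := by
  have hmax : (Ideal.span {(q : ℤ)}).IsMaximal :=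
    (Ideal.isPrime_of_prime (Ideal.prime_span_singleton_iff.mpr
      (Nat.prime_iff_prime_int.mp hq))).isMaximal (by simp [hq.ne_zero])
  constructor
  · intro h
    constructor
    refine (hmax.eq_of_le ?_ ?_)
    · intro htop
      have h1 : (1 : ℤ) ∈ Ideal.under ℤ v.asIdeal := by rw [htop]; trivial
      rw [Ideal.under_def, Ideal.mem_comap, map_one] at h1
      exact v.isPrime.ne_top ((Ideal.eq_top_iff_one _).mpr h1)
    · rw [Ideal.span_singleton_le_iff_mem, Ideal.under_def, Ideal.mem_comap]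
      simpa [Above] using h
  · intro h
    have h1 : (q : ℤ) ∈ Ideal.under ℤ v.asIdeal := by
      rw [← h.over]; exact Ideal.mem_span_singleton_self _
    rw [Ideal.under_def, Ideal.mem_comap] at h1
    simpa [Above] using h1

/-- Galois acts transitively on the places above a rational prime. -/
lemma exists_sigmaPl_eq [IsGalois ℚ F] {q : ℕ} (hq : q.Prime) {v w : Pl F} (hv : Above q v)
    (hw : Above q w) : ∃ σ : F ≃ₐ[ℚ] F, sigmaPl σ v = w := by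
  have := (above_iff_liesOver hq v).mp hv
  have := (above_iff_liesOver hq w).mp hw
  have := v.isPrime
  have := w.isPrime
  obtain ⟨σ, hσ⟩ := Ideal.exists_smul_eq_of_isGaloisGroup (Ideal.span ({(q : ℤ)} : Set ℤ))
    v.asIdeal w.asIdeal (F ≃ₐ[ℚ] F)
  refine ⟨σ, ?_⟩
  ext a
  rw [← hσ, sigmaPl_asIdeal]
  rfl

lemma finite_above (q : ℕ) (hq : q ≠ 0) : {v : Pl F | Above q v}.Finite := by
  have h : (Ideal.span {(q : 𝓞 F)}) ≠ 0 := by
    simpa [Ideal.span_singleton_eq_bot] using hq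
  refine (Ideal.finite_factors h).subset ?_
  intro v hv
  simp only [Set.mem_ofPred_eq] at hv ⊢
  rw [Ideal.dvd_span_singleton]
  exact hv

lemma exists_above (v : Pl F) : ∃ q : ℕ, q.Prime ∧ Above q v := by
  have : v.asIdeal.IsMaximal := v.isMaximal
  let := Ideal.Quotient.field v.asIdeal
  have : Finite (𝓞 F ⧸ v.asIdeal) := Ideal.finiteQuotientOfFreeOfNeBot v.asIdeal v.ne_bot
  obtain ⟨q, hq⟩ := CharP.exists (𝓞 F ⧸ v.asIdeal)
  refine ⟨q, CharP.char_is_prime (𝓞 F ⧸ v.asIdeal) q, ?_⟩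
  unfold Above
  rw [← Ideal.Quotient.eq_zero_iff_mem, map_natCast]
  exact CharP.cast_eq_zero _ q

lemma above_unique {q q' : ℕ} (hq : q.Prime) (hq' : q'.Prime) {v : Pl F} (h : Above q v)
    (h' : Above q' v) : q = q' := by
  by_contra hne
  have hcop : IsCoprime (q : ℤ) (q' : ℤ) :=
    Nat.isCoprime_iff_coprime.mpr ((Nat.coprime_primes hq hq').mpr hne)
  obtain ⟨a, b, hab⟩ := hcop
  apply v.isPrime.ne_top
  rw [Ideal.eq_top_iff_one]
  have h1 : ((a : 𝓞 F) * (q : 𝓞 F) + (b : 𝓞 F) * (q' : 𝓞 F)) = 1 := by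
    have := congrArg (fun z : ℤ => (z : 𝓞 F)) hab
    simpa using this
  rw [← h1]
  exact v.asIdeal.add_mem (v.asIdeal.mul_mem_left _ h) (v.asIdeal.mul_mem_left _ h')

end Fermat.Agent.S14
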