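import Fermat.Agent.S14.Defs

set_option autoImplicit false
set_option linter.unusedSectionVars false
set_option linter.unusedVariables false

namespace Fermat.Agent.S14

open IsDedekindDomain NumberField

variable {F : Type*} [Field F] [NumberField F] {p : ℕ}

/-! ## `ord` -/

lemma valuation_ne_zero' (v : Pl F) {x : F} (hx : x ≠ 0) : v.valuation F x ≠ 0 :=
  (Valuation.ne_zero_iff _).mpr hx

lemma valuation_eq_exp_neg_ord (v : Pl F) {x : F} (hx : x ≠ 0) :
    v.valuation F x = WithZero.exp (- ord v x) := by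
  simp [ord, WithZero.exp_log (valuation_ne_zero' v hx)]

lemma ord_one (v : Pl F) : ord v (1 : F) = 0 := by
  simp [ord]

lemma ord_mul (v : Pl F) {x y : F} (hx : x ≠ 0) (hy : y ≠ 0) :
    ord v (x * y) = ord v x + ord v y := by
  simp only [ord, map_mul]
  rw [WithZero.log_mul (valuation_ne_zero' v hx) (valuation_ne_zero' v hy)]
  ring

lemma ord_inv (v : Pl F) (x : F) : ord v x⁻¹ = - ord v x := by
  simp only [ord, map_inv₀, WithZero.log_inv]

lemma ord_div (v : Pl F) {x y : F} (hx : x ≠ 0) (hy : y ≠ 0) :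
    ord v (x / y) = ord v x - ord v y := by
  rw [div_eq_mul_inv, ord_mul v hx (inv_ne_zero hy), ord_inv]; ring

lemma ord_pow (v : Pl F) (x : F) (n : ℕ) : ord v (x ^ n) = n * ord v x := by
  simp only [ord, map_pow, WithZero.log_pow]
  simp

lemma ord_zpow (v : Pl F) (x : F) (n : ℤ) : ord v (x ^ n) = n * ord v x := by
  simp only [ord, map_zpow₀, WithZero.log_zpow]
  simp

lemma ord_neg (v : Pl F) (x : F) : ord v (-x) = ord v x := by
  simp only [ord, Valuation.map_neg]

lemma ord_prod {ι : Type*} (v : Pl F) (s : Finset ι) (f : ι → F) (hf : ∀ i ∈ s, f i ≠ 0) :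
    ord v (∏ i ∈ s, f i) = ∑ i ∈ s, ord v (f i) := by
  classical
  induction s using Finset.induction_on with
  | empty => simp [ord_one]
  | insert a s ha ih =>
    rw [Finset.prod_insert ha, Finset.sum_insert ha,
      ord_mul v (hf a (Finset.mem_insert_self a s))
        (Finset.prod_ne_zero_iff.mpr fun i hi => hf i (Finset.mem_insert_of_mem hi)),
      ih fun i hi => hf i (Finset.mem_insert_of_mem hi)]

lemma le_ord_iff_valuation_le (v : Pl F) {x : F} (hx : x ≠ 0) (n : ℤ) :
    n ≤ ord v x ↔ v.valuation F x ≤ WithZero.exp (-n) := by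
  rw [valuation_eq_exp_neg_ord v hx, WithZero.exp_le_exp]
  omega

lemma ord_nonneg_of_integer (v : Pl F) (a : 𝓞 F) : 0 ≤ ord v (a : F) := by
  by_cases ha : (a : F) = 0
  · simp [ord, ha]
  · rw [le_ord_iff_valuation_le v ha]
    simpa using v.valuation_le_one (K := F) a

lemma le_ord_iff_mem_pow (v : Pl F) {a : 𝓞 F} (ha : a ≠ 0) (n : ℕ) :
    (n : ℤ) ≤ ord v (a : F) ↔ a ∈ v.asIdeal ^ n := by
  have ha' : (a : F) ≠ 0 := by
    simpa using ha
  rw [le_ord_iff_valuation_le v ha', ← v.intValuation_le_pow_iff_mem]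
  rw [show ((a : 𝓞 F) : F) = algebraMap (𝓞 F) F a from rfl, v.valuation_of_algebraMap]

lemma ord_pos_iff_mem (v : Pl F) {a : 𝓞 F} (ha : a ≠ 0) :
    0 < ord v (a : F) ↔ a ∈ v.asIdeal := by
  have := le_ord_iff_mem_pow v ha 1
  rw [pow_one] at this
  rw [← this]
  norm_num
  omega

/-- ultrametric inequality -/
lemma min_le_ord_add (v : Pl F) {x y : F} (hx : x ≠ 0) (hy : y ≠ 0) (hxy : x + y ≠ 0) :
    min (ord v x) (ord v y) ≤ ord v (x + y) := by
  rw [le_ord_iff_valuation_le v hxy]
  refine (Valuation.map_add _ x y).trans ?_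
  rw [valuation_eq_exp_neg_ord v hx, valuation_eq_exp_neg_ord v hy, max_le_iff,
    WithZero.exp_le_exp, WithZero.exp_le_exp]
  constructor
  · have := min_le_left (ord v x) (ord v y); omega
  · have := min_le_right (ord v x) (ord v y); omega

lemma ord_eq_zero_of_valuation_sub_one_lt (v : Pl F) {x : F}
    (h : v.valuation F (x - 1) < 1) : ord v x = 0 := by
  have h1 : v.valuation F x = 1 := by
    have := Valuation.map_add_eq_of_lt_left (v.valuation F) (x := 1) (y := x - 1)
      (by simpa using h)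
    simpa using this
  simp [ord, h1]

lemma finite_support_ord {x : F} (hx : x ≠ 0) :
    (Function.support fun v : Pl F => ord v x).Finite := by
  refine ((HeightOneSpectrum.Support.finite (𝓞 F) x).union
    (HeightOneSpectrum.Support.finite (𝓞 F) x⁻¹)).subset ?_
  intro v hv
  simp only [Function.mem_support] at hv
  simp only [Set.mem_union, HeightOneSpectrum.Support, Set.mem_ofPred_eq]
  rw [valuation_eq_exp_neg_ord v hx, valuation_eq_exp_neg_ord v (inv_ne_zero hx), ord_inv,
    ← WithZero.exp_zero, WithZero.exp_lt_exp, WithZero.exp_lt_exp]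
  omega

lemma exists_integer_of_ord_nonneg {x : F} (h : ∀ v : Pl F, 0 ≤ ord v x) :
    ∃ a : 𝓞 F, (a : F) = x := by
  by_cases hx : x = 0
  · exact ⟨0, by simp [hx]⟩
  · obtain ⟨a, ha⟩ := HeightOneSpectrum.mem_integers_of_valuation_le_one (R := 𝓞 F) F x
      (fun v => by simpa using (le_ord_iff_valuation_le v hx 0).mp (h v))
    exact ⟨a, ha⟩

lemma exists_unit_of_ord_eq_zero {x : F} (hx : x ≠ 0) (h : ∀ v : Pl F, ord v x = 0) :
    ∃ u : (𝓞 F)ˣ, ((u : 𝓞 F) : F) = x := by
  obtain ⟨a, ha⟩ := exists_integer_of_ord_nonneg (x := x) (fun v => (h v).ge)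
  obtain ⟨b, hb⟩ := exists_integer_of_ord_nonneg (x := x⁻¹)
    (fun v => by rw [ord_inv, h v]; simp)
  have hab : a * b = 1 := by
    apply RingOfIntegers.ext
    simp [ha, hb, hx]
  exact ⟨⟨a, b, hab, by rw [mul_comm]; exact hab⟩, ha⟩

lemma ord_unit (v : Pl F) (u : (𝓞 F)ˣ) : ord v ((u : 𝓞 F) : F) = 0 := by
  have h1 := ord_nonneg_of_integer v (u : 𝓞 F)
  have h2 := ord_nonneg_of_integer v ((u⁻¹ : (𝓞 F)ˣ) : 𝓞 F)
  have h3 : (((u⁻¹ : (𝓞 F)ˣ) : 𝓞 F) : F) = ((u : 𝓞 F) : F)⁻¹ := by
    simp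
  rw [h3, ord_inv] at h2
  omega

/-- `ord` as the exponent in the factorisation of the principal fractional ideal. -/
lemma ord_eq_count (v : Pl F) {x : F} (hx : x ≠ 0) :
    ord v x = FractionalIdeal.count F v (FractionalIdeal.spanSingleton (nonZeroDivisors (𝓞 F)) x) := by
  classical
  obtain ⟨n, d, hd, rfl⟩ := IsFractionRing.div_surjective (A := 𝓞 F) x
  have hd0 : d ≠ 0 := nonZeroDivisors.ne_zero hd
  have hd0' : algebraMap (𝓞 F) F d ≠ 0 := by
    simpa using hd0
  have hn0' : algebraMap (𝓞 F) F n ≠ 0 := by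
    intro h; apply hx; rw [h]; simp
  have hn0 : n ≠ 0 := by
    rintro rfl; apply hn0'; simp
  rw [FractionalIdeal.count_well_defined F v (a := d) (J := Ideal.span {n})]
  · rw [ord_div v hn0' hd0']
    simp only [ord, HeightOneSpectrum.valuation_of_algebraMap, v.intValuation_if_neg hn0,
      v.intValuation_if_neg hd0, WithZero.log_exp]
    ring
  · simpa [FractionalIdeal.spanSingleton_eq_zero_iff] using hx
  · rw [FractionalIdeal.coeIdeal_span_singleton, FractionalIdeal.spanSingleton_mul_spanSingleton]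
    congr 1
    rw [div_eq_mul_inv, mul_comm]

lemma ord_zero (v : Pl F) : ord v (0 : F) = 0 := by
  simp [ord]

end Fermat.Agent.S14
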